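import Fermat.Agent.A2.Mod.H816.L8Upper
import Fermat.Agent.S28.H988.Upper

/-!
# A2 / MOD leaf L8 `DegStatement` (helper816)

`x = j j_q` at level `M q` (`q` prime, `q ∤ M`):  `x` is transcendental over `E`,
`[F_{Mq} : E(x)] = 2 (q + 1) ψ(M)` and `E` is algebraically closed in `F_{Mq}`.

Tower `E(x) ⊆ K₂ = E(j, j_q) ⊆ F_{Mq}` inside `E((t))`:
* `[F_{Mq} : K₂] = ψ(M)` : `S28.H988.relfinrank_jField_full_eq` at levels `q` and `M q`;
* `[K₂ : E(x)] ≤ 2 (q + 1)` : `j` is a root of `T^(q+1) Φ_q(T, x / T)` (`L8Upper`);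
* `[K₂ : E(x)] ≥ 2 (q + 1)` : the two cuspidal valuations `vInf`, `vZero = vInf ∘ W` (`L8Val`).

Main result: `deg : DegStatement E M q` (exact frozen leaf of `Mod/Spec.lean`).
-/

set_option autoImplicit false
set_option linter.unusedSectionVars false
set_option synthInstance.maxHeartbeats 400000
set_option maxHeartbeats 1600000

noncomputable section

namespace Fermat.Agent.A2.Mod.H816

open ModularCurve HahnSeries Polynomial IntermediateField

/-! ## Generalities on `relfinrank` -/

section Gen

variable {k L : Type*} [Field k] [Field L] [Algebra k L]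

/-- the degree of `F` over `k(x)`, computed inside `F` or inside the ambient field -/
theorem finrank_adjoin_eq_relfinrank (F : IntermediateField k L) (x : F) :
    Module.finrank (adjoin k ({x} : Set F)) F = (adjoin k ({(x : L)} : Set L)).relfinrank F := by
  rw [← relfinrank_top_right, ← relfinrank_map_map (adjoin k ({x} : Set F)) ⊤ F.val,
    adjoin_map, Set.image_singleton, ← AlgHom.fieldRange_eq_map, fieldRange_val]
  rfl

/-- `[A(y) : A] ≤ deg P` for a nonzero polynomial `P` over `A` with root `y`,
where `A(y)` is given as an intermediate field `B` over `k`. -/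
theorem relfinrank_le_of_root (A B : IntermediateField k L) (hAB : A ≤ B) (y : L)
    (hB : (adjoin A ({y} : Set L)).restrictScalars k = B) (P : Polynomial A) (hP : P ≠ 0)
    (hroot : aeval y P = 0) :
    0 < A.relfinrank B ∧ A.relfinrank B ≤ P.natDegree := by
  have hint : IsIntegral A y := (isAlgebraic_iff_isIntegral).mp ⟨P, hP, hroot⟩
  have hext : extendScalars hAB = adjoin A ({y} : Set L) := by
    apply restrictScalars_injective k
    rw [extendScalars_restrictScalars, hB]
  rw [relfinrank_eq_finrank_of_le hAB, hext, adjoin.finrank hint]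
  refine ⟨minpoly.natDegree_pos hint, ?_⟩
  exact natDegree_le_natDegree (minpoly.degree_le_of_ne_zero A y hP hroot)

end Gen

/-! ## Level `q` -/

section LevelQ

open Fermat.Agent.S28

variable (E : IntermediateField ℚ Qb) (q : ℕ) [NeZero q]

theorem coe_xq : ((xq E q : FE E q) : LaurentSeries E) =
    jqModC E * qExpand E q (jqModC E) := by
  show ((jE E q 1 (one_dvd q) : FE E q) : LaurentSeries E) *
    ((jE E q q dvd_rfl : FE E q) : LaurentSeries E) = _
  rw [H873.coe_jE, H873.coe_jE, qExpand_one_apply]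

theorem coe_xE (M : ℕ) [NeZero M] : ((xE E M q : FE E (M * q)) : LaurentSeries E) =
    jqModC E * qExpand E q (jqModC E) := by
  show ((jE E (M * q) 1 (one_dvd _) : FE E (M * q)) : LaurentSeries E) *
    ((jE E (M * q) q (dvd_mul_left q M) : FE E (M * q)) : LaurentSeries E) = _
  rw [H873.coe_jE, H873.coe_jE, qExpand_one_apply]

theorem FE_eq_fullC (N : ℕ) : FE E N = modularFunctionFieldFullC E N :=
  H988.laurentBaseChange_full_eq_fullC E N

theorem natCast_ne_zero_E {p : ℕ} (hp : p ≠ 0) : ((p : ℕ) : E) ≠ 0 :=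
  Nat.cast_ne_zero.mpr hp

/-- `K₂ = E(j, j_q)` -/
theorem fullC_prime (hq : q.Prime) :
    modularFunctionFieldFullC E q =
      adjoin E ({jqModC E, qExpand E q (jqModC E)} : Set (LaurentSeries E)) := by
  rw [modularFunctionFieldFullC]
  congr 1
  ext f
  constructor
  · rintro ⟨d, hne, hd, rfl⟩
    rcases (Nat.dvd_prime hq).mp hd with h | h
    · subst h
      rw [qExpand_one_apply]
      exact Set.mem_insert _ _
    · subst h
      exact Set.mem_insert_of_mem _ rfl
  · rintro (h | h)
    · rw [h]
      exact ⟨1, inferInstance, one_dvd q, (qExpand_one_apply _).symm⟩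
    · rw [Set.mem_singleton_iff] at h
      rw [h]
      exact ⟨q, inferInstance, dvd_rfl, rfl⟩

theorem jqModC_ne_zero_E : jqModC E ≠ 0 := jqModC_ne_zero_of_nontrivial E

/-- `E(x)(j) = K₂` -/
theorem adjoin_x_j_eq (hq : q.Prime) :
    (adjoin (adjoin E ({jqModC E * qExpand E q (jqModC E)} : Set (LaurentSeries E)))
      ({jqModC E} : Set (LaurentSeries E))).restrictScalars E =
      modularFunctionFieldFullC E q := by
  rw [adjoin_adjoin_left, fullC_prime E q hq]
  apply le_antisymm
  · rw [adjoin_le_iff]
    rintro f (hf | hf)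
    · rw [Set.mem_singleton_iff] at hf
      rw [hf]
      exact mul_mem (subset_adjoin E _ (Set.mem_insert _ _))
        (subset_adjoin E _ (Set.mem_insert_of_mem _ rfl))
    · rw [Set.mem_singleton_iff] at hf
      rw [hf]
      exact subset_adjoin E _ (Set.mem_insert _ _)
  · rw [adjoin_le_iff]
    have hj : jqModC E ∈ adjoin E (({jqModC E * qExpand E q (jqModC E)} : Set (LaurentSeries E))
        ∪ {jqModC E}) := subset_adjoin E _ (Set.mem_union_right _ rfl)
    have hx : jqModC E * qExpand E q (jqModC E) ∈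
        adjoin E (({jqModC E * qExpand E q (jqModC E)} : Set (LaurentSeries E))
        ∪ {jqModC E}) := subset_adjoin E _ (Set.mem_union_left _ rfl)
    rintro f (hf | hf)
    · rw [hf]; exact hj
    · rw [Set.mem_singleton_iff] at hf
      rw [hf]
      have h3 : qExpand E q (jqModC E) =
          (jqModC E)⁻¹ * (jqModC E * qExpand E q (jqModC E)) := by
        rw [← mul_assoc, inv_mul_cancel₀ (jqModC_ne_zero_E E), one_mul]
      have h4 := mul_mem (inv_mem hj) hx
      rwa [← h3] at h4

theorem adjoin_x_le_fullC (hq : q.Prime) :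
    adjoin E ({jqModC E * qExpand E q (jqModC E)} : Set (LaurentSeries E)) ≤
      modularFunctionFieldFullC E q := by
  rw [fullC_prime E q hq, adjoin_le_iff]
  rintro f hf
  rw [Set.mem_singleton_iff] at hf
  rw [hf]
  exact mul_mem (subset_adjoin E _ (Set.mem_insert _ _))
    (subset_adjoin E _ (Set.mem_insert_of_mem _ rfl))

/-- **Upper bound** `0 < [K₂ : E(x)] ≤ 2 (q + 1)`. -/
theorem relfinrank_x_fullC_le (hq : q.Prime) :
    0 < (adjoin E ({jqModC E * qExpand E q (jqModC E)} : Set (LaurentSeries E))).relfinrank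
        (modularFunctionFieldFullC E q) ∧
      (adjoin E ({jqModC E * qExpand E q (jqModC E)} : Set (LaurentSeries E))).relfinrank
        (modularFunctionFieldFullC E q) ≤ 2 * (q + 1) := by
  obtain ⟨D⟩ := H807.nonempty_modPolyData q hq
  set A := adjoin E ({jqModC E * qExpand E q (jqModC E)} : Set (LaurentSeries E)) with hA
  have hroot : D.Φ.eval₂ (evZ (qExpand E q (jqModC E))) (jqModC E) = 0 := by
    rw [← evZ_of_algebra]
    exact H145.modPoly_eval_j_field D
  obtain ⟨P, hP0, hPdeg, hProot⟩ := exists_poly_of_mul (K := A) (L := LaurentSeries E) D.Φ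
    D.monic D.natDegree_eq (natDegree_swap_modPoly q hq D)
    ⟨jqModC E * qExpand E q (jqModC E), mem_adjoin_simple_self E _⟩
    (jqModC E) (qExpand E q (jqModC E)) rfl hroot
  obtain ⟨h1, h2⟩ := relfinrank_le_of_root A (modularFunctionFieldFullC E q)
    (adjoin_x_le_fullC E q hq) (jqModC E) (adjoin_x_j_eq E q hq) P hP0 hProot
  exact ⟨h1, h2.trans (by omega)⟩

/-- **Lower bound** `2 (q + 1) ≤ [K₂ : E(x)]`. -/
theorem le_relfinrank_x_fullC (hq : q.Prime) :
    2 * (q + 1) ≤
      (adjoin E ({jqModC E * qExpand E q (jqModC E)} : Set (LaurentSeries E))).relfinrank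
        (modularFunctionFieldFullC E q) := by
  have hpos := (relfinrank_x_fullC_le E q hq).1
  rw [← FE_eq_fullC, ← coe_xq, ← finrank_adjoin_eq_relfinrank] at hpos ⊢
  have : Module.Finite (adjoin E ({xq E q} : Set (FE E q))) (FE E q) :=
    Module.finite_of_finrank_pos hpos
  have h := (linearIndependent_pow E q hq.two_le).fintype_card_le_finrank
  rw [Fintype.card_sum, Fintype.card_fin] at h
  omega

theorem relfinrank_x_fullC (hq : q.Prime) :
    (adjoin E ({jqModC E * qExpand E q (jqModC E)} : Set (LaurentSeries E))).relfinrank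
        (modularFunctionFieldFullC E q) = 2 * (q + 1) :=
  le_antisymm (relfinrank_x_fullC_le E q hq).2 (le_relfinrank_x_fullC E q hq)

/-- `[F_{Mq} : K₂] = ψ(M)` -/
theorem relfinrank_fullC_fullC (M : ℕ) (hM : M ≠ 0) (hq : q.Prime) (hqM : ¬ q ∣ M) :
    (modularFunctionFieldFullC E q).relfinrank (modularFunctionFieldFullC E (M * q)) =
      dedekindPsi M := by
  have hN : M * q ≠ 0 := Nat.mul_ne_zero hM hq.ne_zero
  have h1 : (jField E).relfinrank (modularFunctionFieldFullC E q) = q + 1 := by
    rw [H988.relfinrank_jField_full_eq E q hq.ne_zero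
      (fun p hp _ => natCast_ne_zero_E E hp.ne_zero)]
    have := H626.psi_mul_prime_of_not_dvd (N := 1) one_ne_zero hq
      (fun h => hq.one_lt.ne' (Nat.dvd_one.mp h))
    rw [one_mul, dedekindPsi_one, mul_one] at this
    exact this
  have h2 : (jField E).relfinrank (modularFunctionFieldFullC E (M * q)) =
      (q + 1) * dedekindPsi M := by
    rw [H988.relfinrank_jField_full_eq E (M * q) hN
      (fun p hp _ => natCast_ne_zero_E E hp.ne_zero)]
    exact H626.psi_mul_prime_of_not_dvd hM hq hqM
  have hle1 : jField E ≤ modularFunctionFieldFullC E q := by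
    rw [jField, ← H988.full_one]
    exact H988.full_mono E hq.ne_zero (one_dvd q)
  have hle2 : modularFunctionFieldFullC E q ≤ modularFunctionFieldFullC E (M * q) :=
    H988.full_mono E hN (dvd_mul_left q M)
  have h3 := relfinrank_mul_relfinrank hle1 hle2
  rw [h1, h2] at h3
  exact Nat.eq_of_mul_eq_mul_left (Nat.succ_pos q) h3

end LevelQ

/-! ## The leaf -/

section Leaf

variable (E : IntermediateField ℚ Qb) (M q : ℕ) [NeZero M] [NeZero q]

/-- **L8** (exact frozen leaf of `Mod/Spec.lean`). -/
theorem deg : DegStatement E M q := by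
  intro hq hqM
  refine ⟨transcendental_xE E M q, ?_, fun f hf => mem_range_of_isAlgebraic E (M * q) f hf⟩
  have hN : M * q ≠ 0 := Nat.mul_ne_zero (NeZero.ne M) hq.ne_zero
  rw [finrank_adjoin_eq_relfinrank, coe_xE, FE_eq_fullC]
  rw [← relfinrank_mul_relfinrank (adjoin_x_le_fullC E q hq)
    (Fermat.Agent.S28.H988.full_mono E hN (dvd_mul_left q M)),
    relfinrank_x_fullC E q hq, relfinrank_fullC_fullC E q M (NeZero.ne M) hq hqM]
  ring

end Leaf

end Fermat.Agent.A2.Mod.H816

end
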