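import Mathlib

/-!
# A2 / MOD leaf L8, part 1 (helper816): two valuations and linear independence

Abstract (Mathlib only).  `E ⊆ F` fields, `v, v'` additive valuations of `F` with values in
`WithTop ℤ`, trivial on `E`, `x ∈ F` with `v x = v' x = -n < 0`.

* `addVal_sum_le_of_distinct` : ultrametric sum with pairwise distinct values;
* `addVal_aeval_eq` : `v (g(x)) = deg g · v x`;
* `transcendental_of_addVal_ne_zero` : `v f ∉ {0, ⊤}` implies `f` transcendental over `E`;
* `addVal_mem_adjoin` : on `E(x)` both valuations agree and take values in `n ℤ`;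
* `linearIndependent_of_two_addVal` : families `u`, `u'` with `v (u i) = e i < v' (u i)`,
  `v' (u' i) = e i < v (u' i)`, `e` injective modulo `n`, are jointly linearly independent
  over `E(x)`.
-/

set_option autoImplicit false

noncomputable section

namespace Fermat.Agent.A2.Mod.H816

open Polynomial

section Ultra

variable {R : Type*} [Ring R] (v : AddValuation R (WithTop ℤ))

/-- **Ultrametric sum, distinct values.** -/
theorem addVal_sum_le_of_distinct {ι : Type*} (s : Finset ι) (c : ι → R)
    (hd : ∀ i ∈ s, ∀ j ∈ s, i ≠ j → v (c i) = v (c j) → v (c i) = ⊤) :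
    ∀ j ∈ s, v (∑ i ∈ s, c i) ≤ v (c j) := by
  classical
  intro j hj
  obtain ⟨j₀, hj₀, hmin⟩ := Finset.exists_min_image s (fun i => v (c i)) ⟨j, hj⟩
  refine le_trans ?_ (hmin j hj)
  by_cases htop : v (c j₀) = ⊤
  · rw [htop]; exact le_top
  · rw [← Finset.add_sum_erase s c hj₀]
    have hlt : v (c j₀) < v (∑ i ∈ s.erase j₀, c i) := by
      apply AddValuation.map_lt_sum v htop
      intro i hi
      have his : i ∈ s := Finset.mem_of_mem_erase hi
      have hne : i ≠ j₀ := Finset.ne_of_mem_erase hi
      refine lt_of_le_of_ne (hmin i his) ?_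
      intro heq
      exact htop (hd j₀ hj₀ i his hne.symm heq)
    rw [AddValuation.map_add_eq_of_lt_left v hlt]

end Ultra

section WithTopInt

theorem withTop_int_eq_top_of_add_two_le {z : WithTop ℤ} (h : z + 2 ≤ z) : z = ⊤ := by
  induction z using WithTop.recTopCoe with
  | top => rfl
  | coe a =>
    exfalso
    have h2 : ((a + 2 : ℤ) : WithTop ℤ) ≤ (a : WithTop ℤ) := by
      have : ((a + 2 : ℤ) : WithTop ℤ) = (a : WithTop ℤ) + 2 := by
        push_cast; rfl
      rw [this]; exact h
    have := WithTop.coe_le_coe.mp h2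
    omega

end WithTopInt

section Field

variable {E F : Type*} [Field E] [Field F] [Algebra E F]

/-- value of a monomial -/
theorem addVal_monomial (v : AddValuation F (WithTop ℤ))
    (hE : ∀ c : E, c ≠ 0 → v (algebraMap E F c) = 0) {x : F} {a : ℤ}
    (hx : v x = (a : WithTop ℤ)) {c : E} (hc : c ≠ 0) (i : ℕ) :
    v (algebraMap E F c * x ^ i) = ((i * a : ℤ) : WithTop ℤ) := by
  rw [AddValuation.map_mul, hE c hc, zero_add, AddValuation.map_pow, hx]
  rw [← WithTop.coe_nsmul, nsmul_eq_mul]

/-- **Value of a polynomial at an element of negative value.** -/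
theorem addVal_aeval_eq (v : AddValuation F (WithTop ℤ))
    (hE : ∀ c : E, c ≠ 0 → v (algebraMap E F c) = 0) {x : F} {a : ℤ} (ha : a < 0)
    (hx : v x = (a : WithTop ℤ)) {g : E[X]} (hg : g ≠ 0) :
    v (aeval x g) = ((g.natDegree * a : ℤ) : WithTop ℤ) := by
  classical
  rw [aeval_eq_sum_range]
  have hterm : ∀ i : ℕ, g.coeff i ≠ 0 →
      v (g.coeff i • x ^ i) = ((i * a : ℤ) : WithTop ℤ) := by
    intro i hi
    rw [Algebra.smul_def]
    exact addVal_monomial v hE hx hi i
  have hzero : ∀ i : ℕ, g.coeff i = 0 → v (g.coeff i • x ^ i) = ⊤ := by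
    intro i hi
    rw [hi, zero_smul, AddValuation.map_zero]
  apply le_antisymm
  · have hlc : g.coeff g.natDegree ≠ 0 := by
      rw [coeff_natDegree]; exact leadingCoeff_ne_zero.mpr hg
    rw [← hterm g.natDegree hlc]
    apply addVal_sum_le_of_distinct v _ _ _ _ (Finset.mem_range.mpr (Nat.lt_succ_self _))
    intro i _ j _ hij heq
    by_cases hi : g.coeff i = 0
    · exact hzero i hi
    · by_cases hj : g.coeff j = 0
      · rw [heq]; exact hzero j hj
      · exfalso
        rw [hterm i hi, hterm j hj] at heq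
        have h1 : (i : ℤ) * a = j * a := WithTop.coe_injective heq
        have h2 : (i : ℤ) = j := mul_right_cancel₀ (ne_of_lt ha) h1
        exact hij (by exact_mod_cast h2)
  · apply AddValuation.map_le_sum
    intro i hi
    by_cases hc : g.coeff i = 0
    · rw [hzero i hc]; exact le_top
    · rw [hterm i hc]
      apply WithTop.coe_le_coe.mpr
      have h1 : (i : ℤ) ≤ g.natDegree := by
        have := Finset.mem_range.mp hi
        exact_mod_cast Nat.lt_succ_iff.mp this
      nlinarith

theorem aeval_ne_zero_of_addVal (v : AddValuation F (WithTop ℤ))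
    (hE : ∀ c : E, c ≠ 0 → v (algebraMap E F c) = 0) {x : F} {a : ℤ} (ha : a < 0)
    (hx : v x = (a : WithTop ℤ)) {g : E[X]} (hg : g ≠ 0) : aeval x g ≠ 0 := by
  intro h
  have := addVal_aeval_eq v hE ha hx hg
  rw [h, AddValuation.map_zero] at this
  exact WithTop.top_ne_coe this

/-- an element of negative value is transcendental over the constants -/
theorem transcendental_of_addVal_neg (v : AddValuation F (WithTop ℤ))
    (hE : ∀ c : E, c ≠ 0 → v (algebraMap E F c) = 0) {x : F} {a : ℤ} (ha : a < 0)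
    (hx : v x = (a : WithTop ℤ)) : Transcendental E x := by
  rw [Transcendental, IsAlgebraic]
  rintro ⟨g, hg, hroot⟩
  exact aeval_ne_zero_of_addVal v hE ha hx hg hroot

/-- an element of nonzero finite value is transcendental over the constants -/
theorem transcendental_of_addVal_ne_zero (v : AddValuation F (WithTop ℤ))
    (hE : ∀ c : E, c ≠ 0 → v (algebraMap E F c) = 0) {x : F} {a : ℤ} (ha : a ≠ 0)
    (hx : v x = (a : WithTop ℤ)) : Transcendental E x := by
  rcases lt_or_gt_of_ne ha with h | h
  · exact transcendental_of_addVal_neg v hE h hx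
  · have hinv : v x⁻¹ = ((-a : ℤ) : WithTop ℤ) := by
      rw [AddValuation.map_inv, hx]; rfl
    have := transcendental_of_addVal_neg v hE (by omega : -a < 0) hinv
    intro halg
    exact this halg.inv

/-- On `E(x)`: two valuations trivial on `E` with the same negative value at `x` agree, with
values in `a ℤ`. -/
theorem addVal_mem_adjoin (v v' : AddValuation F (WithTop ℤ))
    (hE : ∀ c : E, c ≠ 0 → v (algebraMap E F c) = 0)
    (hE' : ∀ c : E, c ≠ 0 → v' (algebraMap E F c) = 0) {x : F} {a : ℤ} (ha : a < 0)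
    (hx : v x = (a : WithTop ℤ)) (hx' : v' x = (a : WithTop ℤ))
    {r : F} (hr : r ∈ IntermediateField.adjoin E ({x} : Set F)) :
    v' r = v r ∧ (r ≠ 0 → ∃ m : ℤ, v r = ((m * a : ℤ) : WithTop ℤ)) := by
  obtain ⟨g, h, rfl⟩ := (IntermediateField.mem_adjoin_simple_iff E r).mp hr
  by_cases hg : g = 0
  · simp [hg]
  by_cases hh : h = 0
  · simp [hh]
  have e1 := addVal_aeval_eq v hE ha hx hg
  have e2 := addVal_aeval_eq v hE ha hx hh
  have e1' := addVal_aeval_eq v' hE' ha hx' hg
  have e2' := addVal_aeval_eq v' hE' ha hx' hh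
  have key : v (aeval x g / aeval x h) =
      (((g.natDegree : ℤ) - h.natDegree) * a : ℤ) := by
    rw [AddValuation.map_div, e1, e2]
    rw [← WithTop.LinearOrderedAddCommGroup.coe_sub]
    congr 1
    ring
  have key' : v' (aeval x g / aeval x h) =
      (((g.natDegree : ℤ) - h.natDegree) * a : ℤ) := by
    rw [AddValuation.map_div, e1', e2']
    rw [← WithTop.LinearOrderedAddCommGroup.coe_sub]
    congr 1
    ring
  exact ⟨by rw [key, key'], fun _ => ⟨_, key⟩⟩

end Field

section Indep

variable {E F : Type*} [Field E] [Field F] [Algebra E F]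

/-- One family: the value of `∑ Aᵢ uᵢ` is at most that of each term, and the second valuation of
the sum is strictly bigger. -/
theorem addVal_one_side (v v' : AddValuation F (WithTop ℤ))
    (hE : ∀ c : E, c ≠ 0 → v (algebraMap E F c) = 0)
    (hE' : ∀ c : E, c ≠ 0 → v' (algebraMap E F c) = 0) {x : F} {a : ℤ} (ha : a < 0)
    (hx : v x = (a : WithTop ℤ)) (hx' : v' x = (a : WithTop ℤ))
    {ι : Type*} [Fintype ι] (e : ι → ℤ)
    (he : ∀ i i' : ι, ∀ m m' : ℤ, m * a + e i = m' * a + e i' → i = i')
    (u : ι → F) (hu : ∀ i, v (u i) = (e i : WithTop ℤ))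
    (hu' : ∀ i, (e i : WithTop ℤ) + 1 ≤ v' (u i))
    (A : ι → F) (hA : ∀ i, A i ∈ IntermediateField.adjoin E ({x} : Set F)) :
    (∀ j, v (∑ i, A i * u i) ≤ v (A j) + (e j : WithTop ℤ)) ∧
      v (∑ i, A i * u i) + 1 ≤ v' (∑ i, A i * u i) := by
  have hval : ∀ i, v (A i * u i) = v (A i) + (e i : WithTop ℤ) := fun i => by
    rw [AddValuation.map_mul, hu]
  have h1 : ∀ j, v (∑ i, A i * u i) ≤ v (A j) + (e j : WithTop ℤ) := by
    intro j
    rw [← hval j]
    apply addVal_sum_le_of_distinct v Finset.univ _ _ j (Finset.mem_univ j)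
    intro i _ i' _ hii heq
    by_cases hi : A i = 0
    · rw [hi, zero_mul, AddValuation.map_zero]
    by_cases hi' : A i' = 0
    · rw [heq, hi', zero_mul, AddValuation.map_zero]
    exfalso
    obtain ⟨m, hm⟩ := (addVal_mem_adjoin v v' hE hE' ha hx hx' (hA i)).2 hi
    obtain ⟨m', hm'⟩ := (addVal_mem_adjoin v v' hE hE' ha hx hx' (hA i')).2 hi'
    rw [hval, hval, hm, hm', ← WithTop.coe_add, ← WithTop.coe_add] at heq
    exact hii (he i i' m m' (WithTop.coe_injective heq))
  refine ⟨h1, ?_⟩
  apply AddValuation.map_le_sum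
  intro i _
  rw [AddValuation.map_mul, (addVal_mem_adjoin v v' hE hE' ha hx hx' (hA i)).1]
  calc v (∑ i, A i * u i) + 1 ≤ v (A i) + (e i : WithTop ℤ) + 1 := by
        gcongr
        exact h1 i
    _ = v (A i) + ((e i : WithTop ℤ) + 1) := by rw [add_assoc]
    _ ≤ v (A i) + v' (u i) := by
        gcongr
        exact hu' i

/-- **Two valuations give linear independence over `E(x)`.** -/
theorem linearIndependent_of_two_addVal (v v' : AddValuation F (WithTop ℤ))
    (hE : ∀ c : E, c ≠ 0 → v (algebraMap E F c) = 0)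
    (hE' : ∀ c : E, c ≠ 0 → v' (algebraMap E F c) = 0) {x : F} {a : ℤ} (ha : a < 0)
    (hx : v x = (a : WithTop ℤ)) (hx' : v' x = (a : WithTop ℤ))
    {ι : Type*} [Fintype ι] (e : ι → ℤ)
    (he : ∀ i i' : ι, ∀ m m' : ℤ, m * a + e i = m' * a + e i' → i = i')
    (u u' : ι → F) (hu : ∀ i, v (u i) = (e i : WithTop ℤ))
    (hu' : ∀ i, (e i : WithTop ℤ) + 1 ≤ v' (u i))
    (hw : ∀ i, v' (u' i) = (e i : WithTop ℤ))
    (hw' : ∀ i, (e i : WithTop ℤ) + 1 ≤ v (u' i)) :
    LinearIndependent (IntermediateField.adjoin E ({x} : Set F)) (Sum.elim u u') := by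
  classical
  rw [Fintype.linearIndependent_iff]
  intro g hg
  rw [Fintype.sum_sum_type] at hg
  simp only [Sum.elim_inl, Sum.elim_inr] at hg
  set A : ι → F := fun i => ((g (Sum.inl i) : IntermediateField.adjoin E ({x} : Set F)) : F)
    with hAdef
  set B : ι → F := fun i => ((g (Sum.inr i) : IntermediateField.adjoin E ({x} : Set F)) : F)
    with hBdef
  have hA : ∀ i, A i ∈ IntermediateField.adjoin E ({x} : Set F) := fun i => (g (Sum.inl i)).2
  have hB : ∀ i, B i ∈ IntermediateField.adjoin E ({x} : Set F) := fun i => (g (Sum.inr i)).2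
  have hsum : (∑ i, A i * u i) + ∑ i, B i * u' i = 0 := by
    rw [← hg]
    rfl
  obtain ⟨a1, a2⟩ := addVal_one_side v v' hE hE' ha hx hx' e he u hu hu' A hA
  obtain ⟨b1, b2⟩ := addVal_one_side v' v hE' hE ha hx' hx e he u' hw hw' B hB
  have hneg : (∑ i, B i * u' i) = -∑ i, A i * u i := by
    rw [eq_neg_iff_add_eq_zero, add_comm]; exact hsum
  rw [hneg, AddValuation.map_neg, AddValuation.map_neg] at b2
  simp only [hneg, AddValuation.map_neg] at b1
  set s := ∑ i, A i * u i with hs
  have htop : v s = ⊤ := by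
    apply withTop_int_eq_top_of_add_two_le
    calc v s + 2 = v s + 1 + 1 := by rw [add_assoc]; rfl
      _ ≤ v' s + 1 := by gcongr
      _ ≤ v s := b2
  have htop' : v' s = ⊤ := by
    rw [htop] at a2
    exact top_le_iff.mp (by simpa using a2)
  have hAz : ∀ i, A i = 0 := by
    intro i
    have h := a1 i
    rw [htop, top_le_iff] at h
    have : v (A i) = ⊤ := by
      by_contra hne
      obtain ⟨z, hz⟩ := WithTop.ne_top_iff_exists.mp hne
      rw [← hz, ← WithTop.coe_add] at h
      exact WithTop.coe_ne_top h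
    exact (AddValuation.top_iff v).mp this
  have hBz : ∀ i, B i = 0 := by
    intro i
    have h := b1 i
    rw [htop', top_le_iff] at h
    have : v' (B i) = ⊤ := by
      by_contra hne
      obtain ⟨z, hz⟩ := WithTop.ne_top_iff_exists.mp hne
      rw [← hz, ← WithTop.coe_add] at h
      exact WithTop.coe_ne_top h
    exact (AddValuation.top_iff v').mp this
  rintro (i | i)
  · exact Subtype.ext (hAz i)
  · exact Subtype.ext (hBz i)

end Indep

end Fermat.Agent.A2.Mod.H816

end
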