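import Fermat.Agent.A2.Mod.Spec
import Fermat.Agent.A2.Mod.H873.L13
import Fermat.Agent.A2.Mod.H816.L8Abs
import Fermat.Agent.A2.Mod.H816.L3Poly
import Fermat.Agent.A2.H528.FrickeDistinct
import Fermat.Agent.A2.T1.H849.Iota

/-!
# A2 / MOD leaf L8, part 2 (helper816): the two cuspidal valuations of `F_{q,E}`

* `vInf E N` : the `t`-adic valuation of `F_{N,E} ⊆ E((t))`, `vInf (j_d) = -d`;
* `vZero E q` : `vInf ∘ W ∘ ι` at prime level `q` (`W` = `H528.wF` over `ℚ̄`, `ι` = `H849.iota`),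
  `vZero j = -q`, `vZero j_q = -1`;
* `transcendental_xE`, `mem_range_of_isAlgebraic` : parts (a), (c) of `DegStatement`;
* `linearIndependent_pow` : `j_q, …, j_q^(q+1), j, …, j^(q+1)` are linearly independent over
  `E(x)`, `x = j j_q` (level `q`).
-/

set_option autoImplicit false
set_option linter.unusedSectionVars false
set_option synthInstance.maxHeartbeats 400000
set_option maxHeartbeats 1600000

noncomputable section

namespace Fermat.Agent.A2.Mod.H816

open ModularCurve HahnSeries Polynomial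

/-! ## Laurent series -/

section Laurent

variable (k : Type*) [Field k]

theorem addVal_algebraMap_laurent {c : k} (hc : c ≠ 0) :
    HahnSeries.addVal ℤ k (algebraMap k (LaurentSeries k) c) = 0 := by
  rw [HahnSeries.addVal_apply, algebraMap_laurentSeries_eq_single, HahnSeries.orderTop_single hc]
  rfl

theorem coeff_jd_of_lt (d : ℕ) [NeZero d] {n : ℤ} (hn : n < -(d : ℤ)) :
    (qExpand k d (jqModC k)).coeff n = 0 := by
  by_cases hdvd : (d : ℤ) ∣ n
  · obtain ⟨m, rfl⟩ := hdvd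
    rw [qExpand_coeff_mul]
    apply coeff_jqModC_of_lt
    have hd : (0 : ℤ) < d := by exact_mod_cast Nat.pos_of_ne_zero (NeZero.ne d)
    nlinarith
  · exact qExpand_coeff_of_not_dvd _ _ hdvd

theorem coeff_jd_neg (d : ℕ) [NeZero d] : (qExpand k d (jqModC k)).coeff (-(d : ℤ)) = 1 := by
  have h := qExpand_coeff_mul (R := k) d (jqModC k) (-1)
  rw [coeff_jqModC_neg_one] at h
  rw [← h]
  congr 1
  ring

theorem addVal_jd (d : ℕ) [NeZero d] :
    HahnSeries.addVal ℤ k (qExpand k d (jqModC k)) = ((-(d : ℤ) : ℤ) : WithTop ℤ) := by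
  have h1 : (qExpand k d (jqModC k)).coeff (-(d : ℤ)) ≠ 0 := by
    rw [coeff_jd_neg]; exact one_ne_zero
  have hne := ne_zero_of_polar h1
  rw [HahnSeries.addVal_apply_of_ne hne,
    order_eq_of_polar (fun n hn => coeff_jd_of_lt k d hn) h1]

/-- a series algebraic over the constants is constant -/
theorem eq_algebraMap_of_isAlgebraic {f : LaurentSeries k} (hf : IsAlgebraic k f) :
    f = algebraMap k (LaurentSeries k) (f.coeff 0) := by
  set g := f - algebraMap k (LaurentSeries k) (f.coeff 0) with hg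
  have hgalg : IsAlgebraic k g := hf.sub (isAlgebraic_algebraMap _)
  by_contra hne
  have hg0 : g ≠ 0 := fun h => hne (sub_eq_zero.mp h)
  have hval : HahnSeries.addVal ℤ k g = ((g.order : ℤ) : WithTop ℤ) :=
    HahnSeries.addVal_apply_of_ne hg0
  have hcoeff0 : g.coeff 0 = 0 := by
    rw [hg, HahnSeries.coeff_sub, algebraMap_laurentSeries_eq_single,
      HahnSeries.coeff_single_same, sub_self]
  have hord : g.order ≠ 0 := by
    intro h0
    have := HahnSeries.coeff_order_eq_zero.not.mpr hg0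
    rw [h0] at this
    exact this hcoeff0
  exact transcendental_of_addVal_ne_zero (HahnSeries.addVal ℤ k)
    (fun c hc => addVal_algebraMap_laurent k hc) hord hval hgalg

end Laurent

/-! ## The valuation at `∞` -/

section VInf

variable (E : IntermediateField ℚ Qb) (N : ℕ)

/-- the `t`-adic valuation of `F_{N,E}` -/
def vInf : AddValuation (FE E N) (WithTop ℤ) :=
  (HahnSeries.addVal ℤ E).comap (algebraMap (FE E N) (LaurentSeries E))

theorem vInf_apply (f : FE E N) :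
    vInf E N f = HahnSeries.addVal ℤ E (f : LaurentSeries E) := rfl

theorem vInf_algebraMap {c : E} (hc : c ≠ 0) : vInf E N (algebraMap E (FE E N) c) = 0 := by
  rw [vInf_apply]
  exact addVal_algebraMap_laurent E hc

theorem vInf_jE (d : ℕ) [NeZero d] (hd : d ∣ N) :
    vInf E N (jE E N d hd) = ((-(d : ℤ) : ℤ) : WithTop ℤ) := by
  rw [vInf_apply, H873.coe_jE]
  exact addVal_jd E d

end VInf

/-! ## The valuation at `0` (prime level) -/

section VZero

variable (E : IntermediateField ℚ Qb) (q : ℕ) [NeZero q]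

/-- `W ∘ ι : F_{q,E} → F_{q,ℚ̄}` -/
def wIota : FE E q →+* Fermat.Agent.S24.FF q :=
  ((Fermat.Agent.A2.H528.wF q : Fermat.Agent.S24.FF q ≃ₐ[Qb] Fermat.Agent.S24.FF q) :
      Fermat.Agent.S24.FF q →+* Fermat.Agent.S24.FF q).comp
    (Fermat.Agent.A2.T1.H849.iota E (modularFunctionFieldFull q))

theorem wIota_apply (f : FE E q) :
    wIota E q f = Fermat.Agent.A2.H528.wF q
      (Fermat.Agent.A2.T1.H849.iota E (modularFunctionFieldFull q) f) := rfl

/-- the valuation at the cusp `0`: `vInf ∘ W` -/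
def vZero : AddValuation (FE E q) (WithTop ℤ) :=
  (HahnSeries.addVal ℤ Qb).comap
    ((algebraMap (Fermat.Agent.S24.FF q) (LaurentSeries Qb)).comp (wIota E q))

theorem vZero_apply (f : FE E q) :
    vZero E q f =
      HahnSeries.addVal ℤ Qb ((wIota E q f : Fermat.Agent.S24.FF q) : LaurentSeries Qb) := rfl

theorem iota_jE (d : ℕ) [NeZero d] (hd : d ∣ q) :
    Fermat.Agent.A2.T1.H849.iota E (modularFunctionFieldFull q) (jE E q d hd) =
      Fermat.Agent.A2.H528.jFd q d hd := by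
  apply Subtype.ext
  rw [Fermat.Agent.A2.T1.H849.coe_iota, Fermat.Agent.A2.H528.coe_jFd]
  show coeffMap (algebraMap E Qb) (coeffEmb E (qExpand ℚ d jq)) = coeffEmb Qb (qExpand ℚ d jq)
  ext n
  simp only [coeffMap_coeff, coeffEmb_coeff]
  exact (IsScalarTower.algebraMap_apply ℚ E Qb _).symm

theorem coe_jFd_eq (d : ℕ) [NeZero d] (hd : d ∣ q) :
    ((Fermat.Agent.A2.H528.jFd q d hd : Fermat.Agent.S24.FF q) : LaurentSeries Qb) =
      qExpand Qb d (jqModC Qb) := by
  rw [Fermat.Agent.A2.H528.coe_jFd, coeffEmb, coeffMap_qExpand, ← jqModC_rat, coeffMap_jqModC]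

theorem wIota_algebraMap (c : E) :
    wIota E q (algebraMap E (FE E q) c) = algebraMap Qb (Fermat.Agent.S24.FF q) (c : Qb) := by
  rw [wIota_apply, Fermat.Agent.A2.T1.H849.iota_algebraMap]
  exact (Fermat.Agent.A2.H528.wF q).commutes _

theorem vZero_algebraMap {c : E} (hc : c ≠ 0) : vZero E q (algebraMap E (FE E q) c) = 0 := by
  rw [vZero_apply, wIota_algebraMap]
  have hc' : (c : Qb) ≠ 0 := fun h => hc (Subtype.ext h)
  exact addVal_algebraMap_laurent Qb hc'

theorem wIota_jE_one :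
    wIota E q (jE E q 1 (one_dvd q)) = Fermat.Agent.A2.H528.jFd q q dvd_rfl := by
  rw [wIota_apply, iota_jE]
  have := Fermat.Agent.A2.H528.neZero_div q (one_dvd q)
  rw [Fermat.Agent.A2.H528.wF_jFd q 1 (one_dvd q)]
  exact Fermat.Agent.A2.H528.jFd_congr q _ _ (Nat.div_one q)

theorem wIota_jE_self :
    wIota E q (jE E q q dvd_rfl) = Fermat.Agent.A2.H528.jFd q 1 (one_dvd q) := by
  rw [wIota_apply, iota_jE]
  have := Fermat.Agent.A2.H528.neZero_div q (dvd_refl q)
  rw [Fermat.Agent.A2.H528.wF_jFd q q dvd_rfl]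
  exact Fermat.Agent.A2.H528.jFd_congr q _ _ (Nat.div_self (Nat.pos_of_ne_zero (NeZero.ne q)))

theorem vZero_jE_one :
    vZero E q (jE E q 1 (one_dvd q)) = ((-(q : ℤ) : ℤ) : WithTop ℤ) := by
  rw [vZero_apply, wIota_jE_one, coe_jFd_eq]
  exact addVal_jd Qb q

theorem vZero_jE_self :
    vZero E q (jE E q q dvd_rfl) = ((-((1 : ℕ) : ℤ) : ℤ) : WithTop ℤ) := by
  rw [vZero_apply, wIota_jE_self, coe_jFd_eq]
  exact addVal_jd Qb 1

end VZero

/-! ## Consequences -/

section Cons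

theorem addVal_pow_coe {R : Type*} [Ring R] (v : AddValuation R (WithTop ℤ)) {y : R} {b : ℤ}
    (hy : v y = (b : WithTop ℤ)) (n : ℕ) : v (y ^ n) = (((n : ℤ) * b : ℤ) : WithTop ℤ) := by
  rw [AddValuation.map_pow, hy, ← WithTop.coe_nsmul, nsmul_eq_mul]

theorem addVal_mul_coe {R : Type*} [Ring R] (v : AddValuation R (WithTop ℤ)) {y z : R} {b c : ℤ}
    (hy : v y = (b : WithTop ℤ)) (hz : v z = (c : WithTop ℤ)) :
    v (y * z) = ((b + c : ℤ) : WithTop ℤ) := by
  rw [AddValuation.map_mul, hy, hz, WithTop.coe_add]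

variable (E : IntermediateField ℚ Qb)

/-- `vInf x = -(q+1)` at level `M q`. -/
theorem vInf_xE (M q : ℕ) [NeZero M] [NeZero q] :
    vInf E (M * q) (xE E M q) = ((-((q : ℤ) + 1) : ℤ) : WithTop ℤ) := by
  rw [xE, addVal_mul_coe _ (vInf_jE E (M * q) 1 (one_dvd _))
    (vInf_jE E (M * q) q (dvd_mul_left q M))]
  congr 1
  push_cast
  ring

/-- **L8 (a).** `x = j j_q` is transcendental over `E`. -/
theorem transcendental_xE (M q : ℕ) [NeZero M] [NeZero q] : Transcendental E (xE E M q) := by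
  refine transcendental_of_addVal_neg (vInf E (M * q)) (fun c hc => vInf_algebraMap E _ hc)
    (a := -((q : ℤ) + 1)) ?_ (vInf_xE E M q)
  have : (0 : ℤ) ≤ q := Int.natCast_nonneg q
  omega

/-- **L8 (c).** `E` is algebraically closed in `F_{N,E}`. -/
theorem mem_range_of_isAlgebraic (N : ℕ) (f : FE E N) (hf : IsAlgebraic E f) :
    f ∈ (algebraMap E (FE E N)).range := by
  have hf' : IsAlgebraic E (f : LaurentSeries E) :=
    (IntermediateField.isAlgebraic_iff (S := FE E N)).mp hf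
  refine ⟨(f : LaurentSeries E).coeff 0, ?_⟩
  apply Subtype.ext
  exact (eq_algebraMap_of_isAlgebraic E hf').symm

/-- the product `x_q = j j_q` at level `q` -/
def xq (q : ℕ) [NeZero q] : FE E q := jE E q 1 (one_dvd q) * jE E q q dvd_rfl

theorem vInf_xq (q : ℕ) [NeZero q] :
    vInf E q (xq E q) = ((-((q : ℤ) + 1) : ℤ) : WithTop ℤ) := by
  rw [xq, addVal_mul_coe _ (vInf_jE E q 1 (one_dvd _)) (vInf_jE E q q dvd_rfl)]
  congr 1
  push_cast
  ring

theorem vZero_xq (q : ℕ) [NeZero q] :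
    vZero E q (xq E q) = ((-((q : ℤ) + 1) : ℤ) : WithTop ℤ) := by
  rw [xq, addVal_mul_coe _ (vZero_jE_one E q) (vZero_jE_self E q)]
  congr 1
  push_cast
  ring

/-- **Lower bound, level `q`.** `j_q, …, j_q^(q+1), j, …, j^(q+1)` are linearly independent over
`E(x)`. -/
theorem linearIndependent_pow (q : ℕ) [NeZero q] (hq : 2 ≤ q) :
    LinearIndependent (IntermediateField.adjoin E ({xq E q} : Set (FE E q)))
      (Sum.elim (fun i : Fin (q + 1) => jE E q q dvd_rfl ^ ((i : ℕ) + 1))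
        (fun i : Fin (q + 1) => jE E q 1 (one_dvd q) ^ ((i : ℕ) + 1))) := by
  have hq0 : (2 : ℤ) ≤ q := by exact_mod_cast hq
  refine linearIndependent_of_two_addVal (vInf E q) (vZero E q)
    (fun c hc => vInf_algebraMap E q hc) (fun c hc => vZero_algebraMap E q hc)
    (a := -((q : ℤ) + 1)) (by omega) (vInf_xq E q) (vZero_xq E q)
    (fun i : Fin (q + 1) => (((i : ℕ) : ℤ) + 1) * (-(q : ℤ))) ?_ _ _ ?_ ?_ ?_ ?_
  · intro i i' m m' h
    have hi := i.2
    have hi' := i'.2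
    set d : ℤ := ((i : ℕ) : ℤ) - ((i' : ℕ) : ℤ) with hd
    have hdvd : ((q : ℤ) + 1) ∣ d := by
      refine ⟨d - (m' - m), ?_⟩
      rw [hd]
      linear_combination h
    have habs : |d| < (q : ℤ) + 1 := by
      rw [abs_lt]
      constructor <;> omega
    have hd0 : d = 0 := Int.eq_zero_of_abs_lt_dvd hdvd habs
    apply Fin.ext
    omega
  · intro i
    rw [addVal_pow_coe _ (vInf_jE E q q dvd_rfl)]
    congr 1
  · intro i
    rw [addVal_pow_coe _ (vZero_jE_self E q)]
    have h1 : ((((i : ℕ) : ℤ) + 1) * (-(q : ℤ)) : ℤ) + 1 ≤ (((i : ℕ) + 1 : ℕ) : ℤ) * (-((1 : ℕ) : ℤ)) := by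
      push_cast
      have : (0 : ℤ) ≤ ((i : ℕ) : ℤ) := Int.natCast_nonneg _
      nlinarith
    calc ((((((i : ℕ) : ℤ) + 1) * (-(q : ℤ)) : ℤ)) : WithTop ℤ) + 1
        = (((((i : ℕ) : ℤ) + 1) * (-(q : ℤ)) + 1 : ℤ) : WithTop ℤ) := by
          push_cast; rfl
      _ ≤ _ := WithTop.coe_le_coe.mpr h1
  · intro i
    rw [addVal_pow_coe _ (vZero_jE_one E q)]
    congr 1
  · intro i
    rw [addVal_pow_coe _ (vInf_jE E q 1 (one_dvd q))]
    have h1 : ((((i : ℕ) : ℤ) + 1) * (-(q : ℤ)) : ℤ) + 1 ≤ (((i : ℕ) + 1 : ℕ) : ℤ) * (-((1 : ℕ) : ℤ)) := by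
      push_cast
      have : (0 : ℤ) ≤ ((i : ℕ) : ℤ) := Int.natCast_nonneg _
      nlinarith
    calc ((((((i : ℕ) : ℤ) + 1) * (-(q : ℤ)) : ℤ)) : WithTop ℤ) + 1
        = (((((i : ℕ) : ℤ) + 1) * (-(q : ℤ)) + 1 : ℤ) : WithTop ℤ) := by
          push_cast; rfl
      _ ≤ _ := WithTop.coe_le_coe.mpr h1

end Cons

end Fermat.Agent.A2.Mod.H816

end
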