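import Fermat.Agent.S28.H988.Degree
import Fermat.Agent.A2.Mod.H816.L8Abs
import Fermat.Agent.A2.Mod.H816.L3Poly
import Fermat.Agent.A2.Mod.H816.L8Val

/-!
# A2 / MOD leaf L8, part 3 (helper816): the modular polynomial has degree `q + 1` in BOTH
variables, hence `j` has degree `≤ 2 (q + 1)` over `E(j j_q)`

* `natDegree_swap_modPoly` : for `D : S28.ModPolyData q`, `(swap D.Φ).natDegree = q + 1`
  (from `Φ(X, j) = minpoly_{ℚ(j)} j_q` and `Φ(j, j_q) = 0`: `Φ ∣ swap Φ`, compare degrees);
* `exists_poly_of_mul` : abstract: `Φ ∈ ℤ[Y][X]` monic in `X` of degree `n`, of degree `d` in `Y`,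
  `Φ(y, z) = 0`, `x ↦ y z` ⟹ a polynomial `P ≠ 0` over `K ∋ x` of degree `≤ n + d` with
  `P(y) = 0`  (`P(T) = T^d Φ(T, x / T)`).
-/

set_option autoImplicit false
set_option synthInstance.maxHeartbeats 400000
set_option maxHeartbeats 1600000

noncomputable section

namespace Fermat.Agent.A2.Mod.H816

open ModularCurve HahnSeries Polynomial
open scoped Polynomial.Bivariate

/-! ## Bivariate polynomials -/

section Biv

variable {R A : Type*} [CommRing R] [CommRing A] [Algebra R A]

theorem aevalAeval_eq_eval₂ (x y : A) (p : R[X][Y]) :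
    aevalAeval x y p = p.eval₂ (aeval x : R[X] →ₐ[R] A).toRingHom y := by
  induction p using Polynomial.induction_on' with
  | add p q hp hq => rw [map_add, hp, hq, eval₂_add]
  | monomial n a =>
    rw [← C_mul_X_pow_eq_monomial, map_mul, map_pow, aevalAeval_C, aevalAeval_Y, eval₂_mul,
      eval₂_pow, eval₂_C, eval₂_X]
    rfl

theorem eval₂_swap (x y : A) (p : R[X][Y]) :
    (Bivariate.swap p).eval₂ (aeval x : R[X] →ₐ[R] A).toRingHom y =
      p.eval₂ (aeval y : R[X] →ₐ[R] A).toRingHom x := by
  rw [← aevalAeval_eq_eval₂, ← aevalAeval_eq_eval₂, Bivariate.aevalAeval_swap]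

theorem coeff_coeff_swap (p : R[X][Y]) (a b : ℕ) :
    ((Bivariate.swap p).coeff b).coeff a = (p.coeff a).coeff b := by
  induction p using Polynomial.induction_on' with
  | add p q hp hq =>
    rw [map_add, Polynomial.coeff_add, Polynomial.coeff_add, Polynomial.coeff_add,
      Polynomial.coeff_add, hp, hq]
  | monomial n f =>
    induction f using Polynomial.induction_on' with
    | add f g hf hg =>
      rw [map_add (monomial n), map_add, Polynomial.coeff_add, Polynomial.coeff_add,
        Polynomial.coeff_add, Polynomial.coeff_add, hf, hg]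
    | monomial m c =>
      rw [Bivariate.swap_monomial_monomial, Polynomial.coeff_monomial, Polynomial.coeff_monomial]
      by_cases h1 : m = b <;> by_cases h2 : n = a <;>
        simp [h1, h2, Polynomial.coeff_monomial]

end Biv

section EvZ

/-- evaluation `ℤ[X] → L`, `X ↦ z` (instance-free form) -/
abbrev evZ {L : Type*} [CommRing L] (z : L) : Polynomial ℤ →+* L :=
  Polynomial.eval₂RingHom (Int.castRingHom L) z

theorem evZ_of_algebra {L : Type*} [CommRing L] [Algebra ℤ L] (z : L) :
    (aeval z : Polynomial ℤ →ₐ[ℤ] L).toRingHom = evZ z := by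
  refine Polynomial.ringHom_ext' (Subsingleton.elim _ _) ?_
  simp [evZ]

theorem eval₂_swap_int {L : Type*} [CommRing L] (x y : L) (p : ℤ[X][Y]) :
    (Bivariate.swap p).eval₂ (evZ x) y = p.eval₂ (evZ y) x := by
  rw [← evZ_of_algebra, ← evZ_of_algebra]
  exact eval₂_swap x y p

theorem aeval_map_intCast {K L : Type*} [Field K] [CommRing L] [Algebra K L] (y : L)
    (p : Polynomial ℤ) : aeval y (p.map (Int.castRingHom K)) = evZ y p := by
  rw [aeval_def, eval₂_map]
  show _ = p.eval₂ (Int.castRingHom L) y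
  congr 1
  exact Subsingleton.elim _ _

end EvZ

/-! ## The degree of `Φ_q` in the inner variable -/

section Inner

open Fermat.Agent.S28

theorem addVal_jqModC (k : Type*) [Field k] :
    HahnSeries.addVal ℤ k (jqModC k) = ((-1 : ℤ) : WithTop ℤ) := by
  have h := addVal_jd k 1
  rw [qExpand_one_apply] at h
  rw [h]
  rfl

theorem evalAt_jqModC_injective (k : Type*) [Field k] [CharZero k] :
    Function.Injective (evalAt (jqModC k)) := by
  rw [injective_iff_map_eq_zero]
  intro p hp
  by_contra hne
  have hmap : p.map (Int.castRingHom k) ≠ 0 := by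
    intro h
    exact hne (Polynomial.map_injective (Int.castRingHom k) Int.cast_injective
      (by rw [h, Polynomial.map_zero]))
  have := aeval_ne_zero_of_addVal (HahnSeries.addVal ℤ k) (E := k) (F := LaurentSeries k)
      (fun c hc => addVal_algebraMap_laurent k hc) (a := -1) (by norm_num) (x := jqModC k)
      (addVal_jqModC k) hmap
  apply this
  rw [aeval_map_intCast, ← evZ_of_algebra]
  exact hp

/-- **The modular polynomial has degree `q + 1` in the inner variable.** -/
theorem natDegree_swap_modPoly (q : ℕ) [NeZero q] (hq : q.Prime) (D : ModPolyData q) :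
    (Bivariate.swap D.Φ).natDegree = q + 1 := by
  have hB1 : qExpand ℚ q (jqModC ℚ) ∉ jField ℚ :=
    h88_jp_not_mem_jField ℚ q (Nat.cast_ne_zero.mpr hq.ne_zero) hq.one_lt
      (H807.nonempty_unitPolyData q hq).some H25.theta_identity
  set σ := H145.evalAtSub (jField ℚ) (jqModC ℚ) H145.jqModC_mem_jField with hσ
  have hσinj : Function.Injective σ := by
    intro a b hab
    apply evalAt_jqModC_injective ℚ
    have := congrArg (algebraMap (jField ℚ) (LaurentSeries ℚ)) hab
    rw [← RingHom.comp_apply, ← RingHom.comp_apply, H145.algebraMap_comp_evalAtSub] at this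
    exact this
  have hmin := H145.minpoly_jp_over_jField (k := ℚ) D hq.two_le hB1
  have hroot : Polynomial.aeval (qExpand ℚ q (jqModC ℚ)) ((Bivariate.swap D.Φ).map σ) = 0 := by
    rw [H145.aeval_map_evalAtSub]
    have h1 : evalAt (jqModC ℚ) = evZ (jqModC ℚ) := evZ_of_algebra _
    have h2 : evalAt (qExpand ℚ q (jqModC ℚ)) = evZ (qExpand ℚ q (jqModC ℚ)) :=
      evZ_of_algebra _
    rw [h1, eval₂_swap_int, ← h2]
    exact H145.modPoly_eval_j_field D
  have hmonic := D.monic
  have hdvd : D.Φ.map σ ∣ (Bivariate.swap D.Φ).map σ := by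
    rw [← hmin]; exact minpoly.dvd _ _ hroot
  have hdvd' : D.Φ ∣ Bivariate.swap D.Φ := by
    rw [← Polynomial.modByMonic_eq_zero_iff_dvd hmonic]
    apply Polynomial.map_injective σ hσinj
    rw [Polynomial.map_modByMonic _ hmonic, Polynomial.map_zero]
    exact (Polynomial.modByMonic_eq_zero_iff_dvd (hmonic.map σ)).mpr hdvd
  obtain ⟨h, hh⟩ := hdvd'
  have hΦ0 : D.Φ ≠ 0 := hmonic.ne_zero
  have hsw0 : Bivariate.swap D.Φ ≠ 0 := by
    intro h0
    apply hΦ0
    exact (Bivariate.swap (R := ℤ)).injective (by rw [h0, map_zero])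
  have hh0 : h ≠ 0 := by
    rintro rfl
    rw [mul_zero] at hh
    exact hsw0 hh
  have hswh0 : Bivariate.swap h ≠ 0 := by
    intro h0
    apply hh0
    exact (Bivariate.swap (R := ℤ)).injective (by rw [h0, map_zero])
  have e1 : (Bivariate.swap D.Φ).natDegree = D.Φ.natDegree + h.natDegree := by
    rw [hh, natDegree_mul hΦ0 hh0]
  have e2 : D.Φ.natDegree = (Bivariate.swap D.Φ).natDegree + (Bivariate.swap h).natDegree := by
    have h3 := congrArg (Bivariate.swap (R := ℤ)) hh
    rw [Bivariate.swap_swap_apply, map_mul] at h3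
    conv_lhs => rw [h3]
    rw [natDegree_mul hsw0 hswh0]
  rw [D.natDegree_eq] at e1 e2
  omega

end Inner

/-! ## The polynomial `T^d Φ(T, x / T)` -/

section PolyP

variable {K L : Type*} [Field K] [Field L] [Algebra K L]

theorem exists_poly_of_mul (Φ : ℤ[X][Y]) (hΦ : Φ.Monic) {n d : ℕ} (hn : Φ.natDegree = n)
    (hd : (Bivariate.swap Φ).natDegree = d) (x : K) (y z : L)
    (hxyz : algebraMap K L x = y * z)
    (hroot : Φ.eval₂ (evZ z) y = 0) :
    ∃ P : K[X], P ≠ 0 ∧ P.natDegree ≤ n + d ∧ aeval y P = 0 := by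
  classical
  set φ : ℕ → Polynomial ℤ := fun b => (Bivariate.swap Φ).coeff b with hφ
  set P : K[X] := ∑ b ∈ Finset.range (d + 1),
    (φ b).map (Int.castRingHom K) * Polynomial.C (x ^ b) * X ^ (d - b) with hP
  have hφcoeff : ∀ a b, (φ b).coeff a = (Φ.coeff a).coeff b := fun a b =>
    coeff_coeff_swap Φ a b
  have hφdeg : ∀ b, (φ b).natDegree ≤ n := by
    intro b
    rw [natDegree_le_iff_coeff_eq_zero]
    intro a ha
    have h0 : Φ.coeff a = 0 := coeff_eq_zero_of_natDegree_lt (by rw [hn]; exact ha)
    rw [hφcoeff, h0, Polynomial.coeff_zero]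
  have hcoeff : P.coeff (n + d) = 1 := by
    rw [hP, finsetSum_coeff]
    rw [Finset.sum_eq_single 0]
    · rw [Nat.sub_zero, pow_zero, coeff_mul_X_pow, map_one, mul_one, coeff_map, hφcoeff,
        ← hn, hΦ.coeff_natDegree]
      simp
    · intro b hb hb0
      have hbd : b ≤ d := Nat.lt_succ_iff.mp (Finset.mem_range.mp hb)
      have hle : d - b ≤ n + d := by omega
      rw [coeff_mul_X_pow', if_pos hle, coeff_mul_C, coeff_map, hφcoeff]
      have hlt : Φ.natDegree < n + d - (d - b) := by
        rw [hn]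
        have : 0 < b := Nat.pos_of_ne_zero hb0
        omega
      have h0 : Φ.coeff (n + d - (d - b)) = 0 := coeff_eq_zero_of_natDegree_lt hlt
      rw [h0]
      simp
    · intro h0
      exact absurd (Finset.mem_range.mpr (Nat.succ_pos d)) h0
  refine ⟨P, ?_, ?_, ?_⟩
  · intro h0
    rw [h0, Polynomial.coeff_zero] at hcoeff
    exact zero_ne_one hcoeff
  · rw [hP]
    apply natDegree_sum_le_of_forall_le
    intro b hb
    have hbd : b ≤ d := Nat.lt_succ_iff.mp (Finset.mem_range.mp hb)
    calc ((φ b).map (Int.castRingHom K) * Polynomial.C (x ^ b) * X ^ (d - b)).natDegree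
        ≤ ((φ b).map (Int.castRingHom K) * Polynomial.C (x ^ b)).natDegree + (X ^ (d - b) : K[X]).natDegree :=
          natDegree_mul_le
      _ ≤ ((φ b).map (Int.castRingHom K)).natDegree + (Polynomial.C (x ^ b) : K[X]).natDegree + (d - b) := by
          gcongr
          · exact natDegree_mul_le
          · exact natDegree_X_pow_le _
      _ ≤ n + 0 + d := by
          gcongr
          · exact (natDegree_map_le).trans (hφdeg b)
          · rw [natDegree_C]
          · omega
      _ = n + d := by ring
  · rw [hP, map_sum]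
    have hterm : ∀ b ∈ Finset.range (d + 1),
        aeval y ((φ b).map (Int.castRingHom K) * Polynomial.C (x ^ b) * X ^ (d - b)) =
          (evZ y (φ b) * z ^ b) * y ^ d := by
      intro b hb
      have hbd : b ≤ d := Nat.lt_succ_iff.mp (Finset.mem_range.mp hb)
      rw [map_mul, map_mul, aeval_C, map_pow, map_pow, aeval_X, hxyz]
      rw [aeval_map_intCast]
      have h2 : y ^ d = y ^ b * y ^ (d - b) := by
        rw [← _root_.pow_add]
        congr 1
        omega
      rw [h2, mul_pow]
      ring
    rw [Finset.sum_congr rfl hterm, ← Finset.sum_mul]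
    have h3 : (Bivariate.swap Φ).eval₂ (evZ y) z =
        ∑ b ∈ Finset.range (d + 1), evZ y (φ b) * z ^ b := by
      rw [eval₂_eq_sum_range, hd]
    rw [← h3, eval₂_swap_int, hroot, zero_mul]

end PolyP

end Fermat.Agent.A2.Mod.H816

end
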